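import Mathlib

/-!
# Weak Mordell–Weil, abstract step

`Γ` acts additively on `A`.  If `A[n]` is finite, `H ≤ Γ` has finite index, and there is ONE finite
set `Φ` of maps `H → A` containing, for every `Γ`-fixed `y`, the restricted Kummer cocycle
`s ↦ s • z - z` of some `z` with `n • z = y`, then `A^Γ / n A^Γ` is finite.

No normality of `H`, no triviality of the action on `A[n]`, no cohomology formalism.
-/

set_option autoImplicit false

namespace Fermat.Agent.MW.WMWAbs

variable {Γ A : Type*} [Group Γ] [AddCommGroup A] [DistribMulAction Γ A]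

/-- The Kummer cocycle `s ↦ s • z - z`. -/
def kcoc (z : A) (s : Γ) : A := s • z - z

theorem kcoc_mul (z : A) (s t : Γ) : kcoc z (s * t) = s • kcoc z t + kcoc z s := by
  simp [kcoc, mul_smul, smul_sub]

theorem kcoc_torsion (n : ℕ) (z : A) (hz : n • z ∈ FixedPoints.addSubgroup Γ A) (s : Γ) :
    n • kcoc z s = 0 := by
  have h : s • (n • z) = n • z := hz s
  rw [kcoc, smul_sub, ← smul_comm s n z, h, sub_self]

/-- Two Kummer cocycles that agree on `H` and on a set of coset representatives agree. -/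
theorem kcoc_eq_of_eq (H : Subgroup Γ) (z₁ z₂ : A)
    (hH : ∀ s : H, kcoc z₁ (s : Γ) = kcoc z₂ (s : Γ))
    (hT : ∀ q : Γ ⧸ H, kcoc z₁ q.out = kcoc z₂ q.out) (g : Γ) :
    kcoc z₁ g = kcoc z₂ g := by
  set q : Γ ⧸ H := QuotientGroup.mk g with hq
  have hmem : (q.out)⁻¹ * g ∈ H := by
    rw [← QuotientGroup.eq]
    exact QuotientGroup.out_eq' q
  have key : ∀ t : Γ, kcoc z₁ t = kcoc z₂ t → ∀ h : Γ, h ∈ H →
      kcoc z₁ (t * h) = kcoc z₂ (t * h) := by
    intro t ht h hh
    rw [kcoc_mul, kcoc_mul, hH ⟨h, hh⟩, ht]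
  have := key q.out (hT q) _ hmem
  rwa [mul_inv_cancel_left] at this

/-- If the Kummer cocycles of `z₁`, `z₂` agree then `z₁ - z₂` is fixed. -/
theorem sub_mem_fixed_of_kcoc_eq (z₁ z₂ : A) (h : ∀ g : Γ, kcoc z₁ g = kcoc z₂ g) :
    z₁ - z₂ ∈ FixedPoints.addSubgroup Γ A := by
  intro g
  have := h g
  simp only [kcoc] at this
  rw [smul_sub]
  exact sub_eq_sub_iff_sub_eq_sub.mp this

/-- **Abstract weak Mordell–Weil.** -/
theorem finiteIndex_of_kummer (n : ℕ) (H : Subgroup Γ) [H.FiniteIndex]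
    (hfin : {x : A | n • x = 0}.Finite) (Φ : Set (H → A)) (hΦ : Φ.Finite)
    (hK : ∀ y ∈ FixedPoints.addSubgroup Γ A, ∃ z : A, n • z = y ∧
      (fun s : H => (s : Γ) • z - z) ∈ Φ) :
    (nsmulAddMonoidHom (α := ↥(FixedPoints.addSubgroup Γ A)) n).range.FiniteIndex := by
  classical
  set G := FixedPoints.addSubgroup Γ A with hG
  choose! z hz hzΦ using hK
  have : Finite {x : A | n • x = 0} := hfin.to_subtype
  have : Finite Φ := hΦ.to_subtype
  let R : AddSubgroup G := (nsmulAddMonoidHom (α := G) n).range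
  let F : G ⧸ R → ((Γ ⧸ H) → {x : A | n • x = 0}) × Φ := fun c =>
    (fun q => ⟨kcoc (z (c.out : G)) q.out,
        kcoc_torsion n _ (by rw [hz _ (c.out : G).2]; exact (c.out : G).2) _⟩,
      ⟨fun s : H => (s : Γ) • z (c.out : G) - z (c.out : G), hzΦ _ (c.out : G).2⟩)
  have hF : Function.Injective F := by
    intro c₁ c₂ h
    have h1 := congrArg Prod.fst h
    have h2 := congrArg Prod.snd h
    simp only [F] at h1 h2
    have hT : ∀ q : Γ ⧸ H, kcoc (z (c₁.out : G)) q.out = kcoc (z (c₂.out : G)) q.out := by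
      intro q
      have := congrFun h1 q
      exact congrArg Subtype.val this
    have hH : ∀ s : H, kcoc (z (c₁.out : G)) (s : Γ) = kcoc (z (c₂.out : G)) (s : Γ) := by
      intro s
      have := congrArg Subtype.val h2
      exact congrFun this s
    have hfix := sub_mem_fixed_of_kcoc_eq _ _ (kcoc_eq_of_eq H _ _ hH hT)
    have hmem : c₁.out - c₂.out ∈ R := by
      refine ⟨⟨_, hfix⟩, ?_⟩
      apply Subtype.ext
      simp only [nsmulAddMonoidHom_apply, AddSubgroup.coe_nsmul, AddSubgroup.coe_sub, smul_sub]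
      rw [hz _ (c₁.out : G).2, hz _ (c₂.out : G).2]
    rw [← QuotientAddGroup.out_eq' c₁, ← QuotientAddGroup.out_eq' c₂]
    rw [QuotientAddGroup.eq]
    have : -c₁.out + c₂.out = -(c₁.out - c₂.out) := by abel
    rw [this]
    exact R.neg_mem hmem
  have : Finite (G ⧸ R) := Finite.of_injective F hF
  exact AddSubgroup.finiteIndex_of_finite_quotient

end Fermat.Agent.MW.WMWAbs
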