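import Fermat.Agent.ESJ.Cong.GaloisRed
import Fermat.Agent.ESJ.HeckeInputs
import Fermat.Agent.Lib.FF.RRModular
import Fermat.Agent.ESJ.Red.R2Good

/-!
# Weak Mordell–Weil, step (ii): inertia outside `S` fixes the division points of rational points

For a prime `q ≥ 5`, `q ∤ N p` and a valuation subring `A` of `ℚ̄` over `q`: if `σ` is in the
inertia group of `A` and `σ` fixes `p • z`, then `σ` fixes `z`.  Indeed `σ • z - z` is `p`-torsion
and reduces to `0` (the reduction map commutes with the decomposition group,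
`ESJ.Cong.reductionModL_galois`), and the reduction is injective on prime-to-`q` torsion (S18).
-/

set_option autoImplicit false

namespace Fermat.Agent.MW.WMWUnr

open ModularCurve AlgebraicCurve Fermat.Agent.ESJ

set_option synthInstance.maxHeartbeats 400000 in
/-- The reduction map is invariant under the inertia group. -/
theorem reductionModL_inertia (N : ℕ) [NeZero N] (A : ValuationSubring (AlgebraicClosure ℚ))
    (h : ReductionInputsModL A N)
    (σ : AlgebraicClosure ℚ ≃ₐ[ℚ] AlgebraicClosure ℚ) (hσ : σ ∈ A.inertiaSubgroupIn ℚ)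
    (x : JZero N) :
    reductionModL A N (σ • x) = reductionModL A N x := by
  have := Fermat.Agent.ESJ.HeckeInputs.hasPrincipalDivisors_bar N
  have hdeg := Fermat.Agent.ESJ.HeckeInputs.deg_eq_one_bar N
  have hRR : Cong.RRLite (AlgebraicClosure ℚ) (modularFunctionFieldBar N) :=
    Fermat.Agent.Lib.FF.RR.rrLite_modular N
  obtain ⟨hd, h1⟩ := Cong.resAut_eq_one_of_mem_inertia A hσ
  rw [Cong.reductionModL_galois A N hdeg hRR h σ hd x, h1, map_one, one_smul]

set_option synthInstance.maxHeartbeats 400000 in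
/-- Inertia at a good prime `q ∤ N p` fixes every `z` such that it fixes `p • z`. -/
theorem inertia_smul_eq_of_nsmul (N : ℕ) [NeZero N] (p q : ℕ) (hq : q.Prime) (hq5 : 5 ≤ q)
    (hqN : ¬ q ∣ N) (hqp : ¬ q ∣ p)
    (A : ValuationSubring (AlgebraicClosure ℚ)) (hA : A.LiesOverPrime q)
    (σ : AlgebraicClosure ℚ ≃ₐ[ℚ] AlgebraicClosure ℚ) (hσ : σ ∈ A.inertiaSubgroupIn ℚ)
    (z : JZero N) (hz : σ • (p • z) = p • z) : σ • z = z := by
  have hR2 : ReductionInputsModL A N :=
    reductionInputsModL_good N q hq hqN (Or.inl hq5) A hA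
  have h0 : σ • z - z = 0 := by
    refine eq_zero_of_reductionModL_eq_zero N hq hqN A hA hR2 p hqp (σ • z - z) ?_ ?_
    · have hc : p • (σ • z) = σ • (p • z) :=
        (map_nsmul (DistribSMul.toAddMonoidHom (JZero N) σ) p z).symm
      rw [nsmul_sub, hc]
      exact sub_eq_zero.mpr hz
    · rw [map_sub, reductionModL_inertia N A hR2 σ hσ z, sub_self]
  exact sub_eq_zero.mp h0

/-- The `hunr` hypothesis of the weak Mordell–Weil assembly. -/
theorem hunr (N : ℕ) [NeZero N] (p : ℕ) (S : Finset Nat.Primes)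
    (hS : ∀ q : Nat.Primes, q ∉ S → 5 ≤ (q : ℕ) ∧ ¬ (q : ℕ) ∣ N ∧ ¬ (q : ℕ) ∣ p) :
    ∀ q : Nat.Primes, q ∉ S → ∀ A : ValuationSubring (AlgebraicClosure ℚ),
      A.LiesOverPrime (q : ℕ) → ∀ σ ∈ A.inertiaSubgroupIn ℚ, ∀ z : JZero N,
        (∀ τ : AlgebraicClosure ℚ ≃ₐ[ℚ] AlgebraicClosure ℚ, τ • (p • z) = p • z) → σ • z = z := by
  intro q hqS A hA σ hσ z hz
  obtain ⟨h5, hN, hp⟩ := hS q hqS
  exact inertia_smul_eq_of_nsmul N p q q.2 h5 hN hp A hA σ hσ z (hz σ)

end Fermat.Agent.MW.WMWUnr
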